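/-
MAZ free layer, brick F-E2 (helper24), part 1: THE CORE.

For a prime `p` put `u = Δ(q^p)/Δ(q) ∈ Fbar p` (the modular unit of `X₀(p)`).

* `pow_dvd_twelve` : if `h ^ m = c · u` with `h ∈ Fbar p`, `c ∈ ℚbar^×`, `0 < m`, then `m ∣ 12`.

Proof (no Dedekind sums, no eta multiplier): normalise `h` to leading coefficient `1`, so that
`h ^ m = u`; then `h` is fixed by the coefficientwise Galois action (`σ h / h` is an `m`-th root of unity
with leading coefficient `1`).  The Fricke involution `W` (expansion at the cusp `0`) commutes with the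
Galois action and `W u = p⁻¹² u⁻¹`, hence `κ := h · W h` satisfies `κ ^ m = p⁻¹²`, is a constant, and is
Galois-fixed, i.e. `κ ∈ ℚ`; comparing `p`-adic valuations gives `m ∣ 12`.
-/
import Mathlib
import Fermat.Agent.RED.BASE.DeltaMem19
import Fermat.Agent.ES.N34.FrickeFK8
import Fermat.Agent.IG.PR.TransferPoly20
import Fermat.Agent.X0.FFConst
import Fermat.Agent.RED.CUSP.CuspExact16
import Fermat.Agent.Lib.FrobeniusExists

set_option autoImplicit false
set_option linter.unusedSectionVars false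

open ModularCurve UpperHalfPlane HahnSeries
open scoped MatrixGroups

noncomputable section

namespace Fermat.Agent.MAZ.Ogg24

open Fermat.Agent.X0 Fermat.Agent.X0.Analytic
open Fermat.Agent.RED.BASE.QExpMem19 Fermat.Agent.RED.BASE.DeltaMem19
open Fermat.Agent.IG.PR.Interface20 Fermat.Agent.IG.AN.DeltaQuot19
open Fermat.Agent.IG.AN.DeltaQuotExp19
open Fermat.Agent.ES.N34.FrickeFK8 Fermat.Agent.RED.LVL.FrickeExp17

/-! ### leading coefficients -/

section Leading

theorem leadingCoeff_pow' {R : Type*} [CommRing R] [IsDomain R] (x : LaurentSeries R) (m : ℕ) :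
    (x ^ m).leadingCoeff = x.leadingCoeff ^ m := by
  induction m with
  | zero => rw [pow_zero, pow_zero, HahnSeries.leadingCoeff_one]
  | succ n ih => rw [pow_succ, pow_succ, HahnSeries.leadingCoeff_mul, ih]

theorem leadingCoeff_C' {R : Type*} [CommRing R] (c : R) :
    (HahnSeries.C c : LaurentSeries R).leadingCoeff = c := by
  rw [HahnSeries.C_apply]
  exact HahnSeries.leadingCoeff_of_single

theorem leadingCoeff_qExpand (k : Type*) [Field k] (r : ℕ) [NeZero r] (f : LaurentSeries k) :
    (qExpand k r f).leadingCoeff = f.leadingCoeff := by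
  rw [HahnSeries.leadingCoeff_eq, HahnSeries.leadingCoeff_eq,
    Fermat.Agent.RED.CUSP.CuspExact16.order_qExpand, qExpand_coeff_mul]

theorem leadingCoeff_deltaq (k : Type*) [Field k] : (deltaq k).leadingCoeff = 1 := by
  have hP : PowerSeries.constantCoeff
      (ModularCurve.dedekindEtaUnit.map (Int.castRingHom k)) = 1 :=
    Fermat.Agent.IG.PR.TransferPoly20.constantCoeff_map_cast k _
      ModularCurve.constantCoeff_dedekindEtaUnit
  have h0 := Fermat.Agent.IG.PR.TransferPoly20.order_ofPowerSeries_of_constantCoeff_eq_one k _ hP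
  have h1 : (HahnSeries.ofPowerSeries ℤ k
      (ModularCurve.dedekindEtaUnit.map (Int.castRingHom k))).leadingCoeff = 1 := by
    rw [HahnSeries.leadingCoeff_eq, h0]
    have := HahnSeries.ofPowerSeries_apply_coeff (Γ := ℤ) (R := k)
      (ModularCurve.dedekindEtaUnit.map (Int.castRingHom k)) 0
    rw [Nat.cast_zero] at this
    rw [this, PowerSeries.coeff_zero_eq_constantCoeff, hP]
  rw [deltaq, HahnSeries.leadingCoeff_mul, HahnSeries.leadingCoeff_of_single, h1, one_mul]

theorem leadingCoeff_uq (k : Type*) [Field k] (p : ℕ) [NeZero p] : (uq k p).leadingCoeff = 1 := by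
  have h : uq k p * deltaq k = qExpand k p (deltaq k) := by
    rw [uq, mul_assoc, mul_comm (deltaqInv k), deltaq_mul_deltaqInv, mul_one]
  have h2 := congrArg HahnSeries.leadingCoeff h
  rw [HahnSeries.leadingCoeff_mul, leadingCoeff_qExpand, leadingCoeff_deltaq, mul_one] at h2
  exact h2

end Leading

/-! ### the modular unit and its Fricke conjugate -/

section Unit

variable (p : ℕ) [NeZero p]

/-- `u = Δ(q^p)/Δ(q)` as an element of `Fbar p`. -/
def uP : FF p := ⟨uq Kbar p, mem_of_isNice (isNice_deltaQuot p)⟩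

/-- `u⁻¹ = Δ(q)/Δ(q^p)` as an element of `Fbar p`. -/
def uPinv : FF p := ⟨uqInv p Kbar, mem_of_isNice (isNice_deltaQuotInv p)⟩

theorem coe_uP : ((uP p : FF p) : LaurentSeries Kbar) = uq Kbar p := rfl

theorem coe_uPinv : ((uPinv p : FF p) : LaurentSeries Kbar) = uqInv p Kbar := rfl

theorem uPinv_mul_uP : uPinv p * uP p = 1 :=
  Subtype.ext (uqInv_mul_uq p Kbar)

theorem uP_ne_zero : uP p ≠ 0 := right_ne_zero_of_mul_eq_one (uPinv_mul_uP p)

theorem uPinv_ne_zero : uPinv p ≠ 0 := left_ne_zero_of_mul_eq_one (uPinv_mul_uP p)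

/-- The expansion of `u` at the cusp `∞` (in `q_p`). -/
theorem T_one_uP : (cuspData p).T 1 (uP p) = qExpand Kbar p (uq Kbar p) := by
  have hfun : compSL (deltaQuot p) 1 = deltaQuot p := by
    funext z
    show deltaQuot p ((1 : SL(2, ℤ)) • z) = deltaQuot p z
    rw [one_smul]
  have hI : IntgQN p (compSL (deltaQuot p) 1)
      (toC (qExpand Kbar p (coeffMap (Int.castRingHom Kbar) (uq ℤ p)))) := by
    rw [hfun]
    exact expansion_one p
  have h := T_eq_of_isNice (isNice_deltaQuot p) 1 _ hI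
  rw [Fermat.Agent.IG.AN.DeltaQuotExp19.coeffMap_uq] at h
  exact h

/-- The expansion of `u` at the cusp `0`: `p⁻¹² Δ(q)/Δ(q^p)`. -/
theorem tauS_uP :
    tauS p (uP p) = HahnSeries.C (((p : Kbar)⁻¹) ^ 12) * uqInv p Kbar := by
  have h := T_eq_of_isNice (isNice_deltaQuot p) ModularGroup.S _ (expansion_S p)
  have h2 : coeffMap (Int.castRingHom Kbar) (deltaq ℤ * qExpand ℤ p (deltaqInv ℤ)) =
      uqInv p Kbar := coeffMap_uqInv p (Int.castRingHom Kbar)
  rw [h2] at h
  exact h

/-- `W u · u = p⁻¹²`. -/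
theorem frickeBar_uP_mul :
    frickeBar p (uP p) * uP p = algebraMap Kbar (FF p) (((p : Kbar)⁻¹) ^ 12) := by
  apply Subtype.ext
  show tauS p (uP p) * uq Kbar p = algebraMap Kbar (LaurentSeries Kbar) (((p : Kbar)⁻¹) ^ 12)
  rw [tauS_uP, mul_assoc, uqInv_mul_uq, mul_one, HahnSeries.C_apply,
    algebraMap_laurentSeries_eq_single]

end Unit

/-! ### the coefficientwise Galois action -/

section Galois

variable (p : ℕ) [NeZero p]

/-- The coefficientwise action of `σ ∈ Gal(ℚbar/ℚ)` on `Fbar p`. -/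
abbrev arith (σ : Kbar ≃ₐ[ℚ] Kbar) : FF p ≃+* FF p :=
  arithmeticRingAut (modularFunctionFieldFull p) σ

theorem arith_jdF (σ : Kbar ≃ₐ[ℚ] Kbar) (d : ℕ) [NeZero d] (hd : d ∣ p) :
    arith p σ (jdF p d hd) = jdF p d hd := by
  apply Subtype.ext
  rw [coe_arithmeticRingAut_apply]
  exact coeffMap_coeffEmb σ _

theorem arith_uP (σ : Kbar ≃ₐ[ℚ] Kbar) : arith p σ (uP p) = uP p := by
  apply Subtype.ext
  rw [coe_arithmeticRingAut_apply, coe_uP]
  exact Fermat.Agent.IG.AN.DeltaQuotExp19.coeffMap_uq _ p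

theorem arith_algebraMap (σ : Kbar ≃ₐ[ℚ] Kbar) (c : Kbar) :
    arith p σ (algebraMap Kbar (FF p) c) = algebraMap Kbar (FF p) (σ c) :=
  arithmeticRingAut_algebraMap _ σ c

/-- **The Fricke involution is defined over `ℚ`.** -/
theorem frickeBar_arith (σ : Kbar ≃ₐ[ℚ] Kbar) (f : FF p) :
    frickeBar p (arith p σ f) = arith p σ (frickeBar p f) := by
  have hR : ∀ u : Rsub p, frickeBar p (arith p σ (u : FF p)) =
      arith p σ (frickeBar p (u : FF p)) := by
    intro u
    induction u using FracR.Rsub_induction with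
    | hgen d hd =>
        have hd' := hd
        obtain ⟨e, hde⟩ := hd'
        have he0 : e ≠ 0 := by
          rintro rfl
          exact NeZero.ne p (by rw [hde, mul_zero])
        have : NeZero e := ⟨he0⟩
        show frickeBar p (arith p σ (jdF p d hd)) = arith p σ (frickeBar p (jdF p d hd))
        have h1 := frickeBar_jdF p d e hde.symm
        rw [arith_jdF p σ d hd, h1, arith_jdF]
    | hconst c =>
        show frickeBar p (arith p σ (algebraMap Kbar (FF p) c)) =
          arith p σ (frickeBar p (algebraMap Kbar (FF p) c))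
        rw [arith_algebraMap, (frickeBar p).commutes, (frickeBar p).commutes, arith_algebraMap]
    | hadd u v hu hv =>
        show frickeBar p (arith p σ ((u : FF p) + (v : FF p))) =
          arith p σ (frickeBar p ((u : FF p) + (v : FF p)))
        rw [map_add, map_add, hu, hv, map_add, map_add]
    | hmul u v hu hv =>
        show frickeBar p (arith p σ ((u : FF p) * (v : FF p))) =
          arith p σ (frickeBar p ((u : FF p) * (v : FF p)))
        rw [map_mul, map_mul, hu, hv, map_mul, map_mul]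
  obtain ⟨r, s, rfl⟩ := FracR.exists_div p f
  rw [map_div₀, map_div₀, hR r, hR s, map_div₀, map_div₀]

/-- An element of `ℚbar` fixed by `Gal(ℚbar/ℚ)` is rational. -/
theorem exists_rat_of_fixed (x : Kbar) (h : ∀ σ : Kbar ≃ₐ[ℚ] Kbar, σ x = x) :
    ∃ r : ℚ, algebraMap ℚ Kbar r = x := by
  have : IsGalois ℚ Kbar := Fermat.Agent.Lib.FrobeniusExists.isGalois_Qbar
  have h1 := InfiniteGalois.fixedField_fixingSubgroup (k := ℚ) (K := Kbar) ⊥
  have hx : x ∈ (⊥ : IntermediateField ℚ Kbar) := by
    rw [← h1]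
    intro σ
    exact h σ.1
  exact IntermediateField.mem_bot.mp hx

end Galois

/-! ### constants -/

section Constants

variable (p : ℕ) [NeZero p]

/-- An element of `Fbar p` one of whose positive powers is a constant is a constant. -/
theorem exists_const_of_pow_eq {x : FF p} {m : ℕ} (hm : 0 < m) {c : Kbar}
    (hx : x ^ m = algebraMap Kbar (FF p) c) : ∃ c' : Kbar, x = algebraMap Kbar (FF p) c' := by
  have halg : IsAlgebraic Kbar x :=
    IsAlgebraic.of_pow hm (by rw [hx]; exact isAlgebraic_algebraMap c)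
  exact FF.eq_algebraMap_of_isAlgebraic halg

end Constants

/-! ### arithmetic -/

theorem dvd_twelve_of_rat_pow {p : ℕ} (hp : p.Prime) {m : ℕ} (hm : 0 < m) {r : ℚ}
    (h : r ^ m = ((p : ℚ)⁻¹) ^ 12) : m ∣ 12 := by
  have := Fact.mk hp
  have hp0 : (p : ℚ) ≠ 0 := Nat.cast_ne_zero.mpr hp.ne_zero
  have hr : r ≠ 0 := by
    rintro rfl
    rw [zero_pow hm.ne'] at h
    exact pow_ne_zero 12 (inv_ne_zero hp0) h.symm
  have h1 : padicValRat p (r ^ m) = m * padicValRat p r := padicValRat.pow r
  have h2 : padicValRat p (((p : ℚ)⁻¹) ^ 12) = -12 := by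
    rw [padicValRat.pow, padicValRat.inv, padicValRat.self hp.one_lt]
    norm_num
  rw [h, h2] at h1
  have h3 : (m : ℤ) ∣ 12 := ⟨-padicValRat p r, by linarith⟩
  exact_mod_cast h3

/-! ### the core theorem -/

section Core

variable (p : ℕ) [NeZero p]

/-- **Core of Ogg's theorem.** If a constant multiple of the modular unit `u = Δ(q^p)/Δ(q)` is an
`m`-th power in `Fbar p` (`p` prime), then `m ∣ 12`. -/
theorem pow_dvd_twelve (hp : p.Prime) {m : ℕ} (hm : 0 < m) {h : FF p} {c : Kbar} (hc : c ≠ 0)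
    (hpow : h ^ m = algebraMap Kbar (FF p) c * uP p) : m ∣ 12 := by
  -- `h ≠ 0`
  have hh0 : h ≠ 0 := by
    rintro rfl
    rw [zero_pow hm.ne'] at hpow
    have hc' : algebraMap Kbar (FF p) c ≠ 0 := by
      rw [Ne, map_eq_zero_iff _ (algebraMap Kbar (FF p)).injective]
      exact hc
    exact mul_ne_zero hc' (uP_ne_zero p) hpow.symm
  have hhS0 : ((h : FF p) : LaurentSeries Kbar) ≠ 0 := fun h0 => hh0 (Subtype.ext h0)
  -- the leading coefficient `a` of `h`, `a ^ m = c`
  set a : Kbar := ((h : FF p) : LaurentSeries Kbar).leadingCoeff with ha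
  have ha0 : a ≠ 0 := HahnSeries.leadingCoeff_ne_zero.mpr hhS0
  have hpowS : ((h : FF p) : LaurentSeries Kbar) ^ m = HahnSeries.C c * uq Kbar p := by
    have := congrArg (fun x : FF p => (x : LaurentSeries Kbar)) hpow
    beta_reduce at this
    rw [show ((h ^ m : FF p) : LaurentSeries Kbar) = ((h : FF p) : LaurentSeries Kbar) ^ m from rfl]
      at this
    rw [this]
    show algebraMap Kbar (LaurentSeries Kbar) c * uq Kbar p = _
    rw [algebraMap_laurentSeries_eq_single, HahnSeries.C_apply]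
  have hac : a ^ m = c := by
    have := congrArg HahnSeries.leadingCoeff hpowS
    rw [leadingCoeff_pow', HahnSeries.leadingCoeff_mul, leadingCoeff_C', leadingCoeff_uq,
      mul_one] at this
    exact this
  -- normalise
  set h1 : FF p := algebraMap Kbar (FF p) a⁻¹ * h with hh1
  have h1pow : h1 ^ m = uP p := by
    rw [hh1, mul_pow, hpow, ← map_pow, ← mul_assoc, ← map_mul, inv_pow, hac, inv_mul_cancel₀ hc,
      map_one, one_mul]
  have h1ne : h1 ≠ 0 := by
    intro h0
    rw [h0, zero_pow hm.ne'] at h1pow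
    exact uP_ne_zero p h1pow.symm
  have h1S : ((h1 : FF p) : LaurentSeries Kbar) =
      HahnSeries.C a⁻¹ * ((h : FF p) : LaurentSeries Kbar) := by
    show algebraMap Kbar (LaurentSeries Kbar) a⁻¹ * _ = _
    rw [algebraMap_laurentSeries_eq_single, HahnSeries.C_apply]
  have h1lead : ((h1 : FF p) : LaurentSeries Kbar).leadingCoeff = 1 := by
    rw [h1S, HahnSeries.leadingCoeff_mul, leadingCoeff_C', ← ha, inv_mul_cancel₀ ha0]
  -- `h1` is Galois-fixed
  have hfix : ∀ σ : Kbar ≃ₐ[ℚ] Kbar, arith p σ h1 = h1 := by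
    intro σ
    have hx : (arith p σ h1 / h1) ^ m = algebraMap Kbar (FF p) 1 := by
      rw [div_pow, ← map_pow, h1pow, arith_uP, div_self (uP_ne_zero p), map_one]
    obtain ⟨ζ, hζ⟩ := exists_const_of_pow_eq p hm hx
    have hσ : arith p σ h1 = algebraMap Kbar (FF p) ζ * h1 := by
      rw [← hζ, div_mul_cancel₀ _ h1ne]
    have hcoef := congrArg (fun x : FF p =>
      ((x : FF p) : LaurentSeries Kbar).coeff ((h1 : FF p) : LaurentSeries Kbar).order) hσ
    beta_reduce at hcoef
    rw [coe_arithmeticRingAut_apply, coeffMap_coeff] at hcoef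
    have hmulS : ((algebraMap Kbar (FF p) ζ * h1 : FF p) : LaurentSeries Kbar) =
        HahnSeries.C ζ * ((h1 : FF p) : LaurentSeries Kbar) := by
      show algebraMap Kbar (LaurentSeries Kbar) ζ * _ = _
      rw [algebraMap_laurentSeries_eq_single, HahnSeries.C_apply]
    rw [hmulS, HahnSeries.C_mul_eq_smul, HahnSeries.coeff_smul, smul_eq_mul,
      ← HahnSeries.leadingCoeff_eq, h1lead, map_one, mul_one] at hcoef
    rw [hσ, ← hcoef, map_one, one_mul]
  -- the constant `κ = h1 · W h1`
  set κ : FF p := h1 * frickeBar p h1 with hκ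
  have hκpow : κ ^ m = algebraMap Kbar (FF p) (((p : Kbar)⁻¹) ^ 12) := by
    rw [hκ, mul_pow, ← map_pow, h1pow, mul_comm, frickeBar_uP_mul]
  obtain ⟨κ0, hκ0⟩ := exists_const_of_pow_eq p hm hκpow
  have hκfix : ∀ σ : Kbar ≃ₐ[ℚ] Kbar, σ κ0 = κ0 := by
    intro σ
    have h2 : arith p σ κ = κ := by
      rw [hκ, map_mul, ← frickeBar_arith, hfix σ]
    rw [hκ0, arith_algebraMap] at h2
    exact (algebraMap Kbar (FF p)).injective h2
  obtain ⟨r, hr⟩ := exists_rat_of_fixed κ0 hκfix
  have hrpow : r ^ m = ((p : ℚ)⁻¹) ^ 12 := by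
    apply (algebraMap ℚ Kbar).injective
    rw [map_pow, hr, map_pow, map_inv₀, map_natCast]
    apply (algebraMap Kbar (FF p)).injective
    rw [map_pow, ← hκ0, hκpow]
  exact dvd_twelve_of_rat_pow hp hm hrpow

end Core

end Fermat.Agent.MAZ.Ogg24
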