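/-
MAZ free layer, brick F-E2 (helper24), part 2: THE DIVISOR OF THE MODULAR UNIT AT PRIME LEVEL.

For a prime `p`, `X₀(p)` has exactly two cusps `cuspInf p = cuspPlace 1` (width `1`) and
`cuspZero p = cuspPlace S` (width `p`) (helper89's `HeckeCusp89`), and the modular unit
`u = Δ(q^p)/Δ(q)` has divisor `(p - 1) ((∞) - (0))`:

* `ord_cuspInf_uP`, `ord_cuspZero_uP`, `ord_uP_of_nonneg` : the three cases;
* `ord_uP_eq : ord_v u = (p - 1) · cuspDiv p v` for every place `v`
  (`cuspDiv = HeckeCusp89.cuspDiv = (∞) - (0)`).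
-/
import Mathlib
import Fermat.Agent.MAZ.Ogg24.Core
import Fermat.Agent.MAZ.HeckeCusp89.CuspPrime
import Fermat.Agent.ES.P36.CuspWidth3
import Fermat.Agent.X0.CuspSurj
import Fermat.Agent.X0.Degree
import Fermat.Agent.X0.PointPlacesD
import Fermat.Agent.RED.BASE.Unbranched14

set_option autoImplicit false
set_option linter.unusedSectionVars false

open ModularCurve UpperHalfPlane HahnSeries AlgebraicCurve CongruenceSubgroup
open scoped MatrixGroups

noncomputable section

namespace Fermat.Agent.MAZ.Ogg24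

open Fermat.Agent.X0 Fermat.Agent.X0.Analytic Fermat.Agent.X0.PointPlacesD
open Fermat.Agent.RED.BASE.QExpMem19 Fermat.Agent.RED.BASE.DeltaMem19
open Fermat.Agent.RED.BASE.Unbranched14
open Fermat.Agent.IG.PR.Interface20 Fermat.Agent.IG.AN.DeltaQuot19
open Fermat.Agent.RED.CUSP.CuspExact16 Fermat.Agent.ES.P36.CuspWidth3
open Fermat.Agent.RED.LVL.FrickeExp17
open Fermat.Agent.MAZ.HeckeCusp89

/-! ### some `SL(2, ℤ)` computations -/

section SL2

theorem coe_S_inv : (↑(ModularGroup.S⁻¹) : Matrix (Fin 2) (Fin 2) ℤ) = !![0, 1; -1, 0] := by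
  rw [Matrix.SpecialLinearGroup.SL2_inv_expl]
  simp [ModularGroup.S]
  rfl

theorem S_inv_sq_mem (N : ℕ) : ModularGroup.S⁻¹ * ModularGroup.S⁻¹ ∈ Gamma0 N := by
  rw [Gamma0_mem]
  have : (ModularGroup.S⁻¹ * ModularGroup.S⁻¹ : SL(2, ℤ)) 1 0 = 0 := by
    rw [Matrix.SpecialLinearGroup.coe_mul, coe_S_inv]
    simp [Matrix.mul_apply, Fin.sum_univ_two]
  rw [this]
  simp

theorem S_inv_entry : (ModularGroup.S⁻¹ : SL(2, ℤ)) 1 0 = -1 := by
  rw [coe_S_inv]
  rfl

end SL2

/-! ### the two cusps -/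

section Cusps

variable (p : ℕ) [NeZero p]

theorem placeOf_one : placeOf p 1 = cuspInf p := by
  rw [placeOf, inv_one]
  rfl

theorem placeOf_S_inv : placeOf p ModularGroup.S⁻¹ = cuspZero p := by
  rw [placeOf, inv_inv]
  rfl

/-- The expansions at `S⁻¹ = -S` and at `S` agree. -/
theorem T_S_inv : (cuspData p).T ModularGroup.S⁻¹ = (cuspData p).T ModularGroup.S := by
  have h := (hGood p).mul_left (ModularGroup.S⁻¹ * ModularGroup.S⁻¹) (S_inv_sq_mem p)
    ModularGroup.S
  rwa [inv_mul_cancel_right] at h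

theorem cuspR_one : cuspR p 1 = p := by
  have hW : cuspW p 1 = 1 := (cuspW_eq_one_iff p 1).mpr (by simp)
  rw [cuspR, hW, Nat.div_one]

theorem cuspR_S_inv : cuspR p ModularGroup.S⁻¹ = 1 := by
  have hW : cuspW p ModularGroup.S⁻¹ = p :=
    cuspW_eq_self_of_isCoprime p _ (by rw [S_inv_entry]; exact isCoprime_one_right.neg_right)
  rw [cuspR, hW, Nat.div_self (Nat.pos_of_ne_zero (NeZero.ne p))]

end Cusps

/-! ### orders of the `q`-series -/

section Orders

variable (p : ℕ) [NeZero p]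

theorem uq_ne_zero : uq Kbar p ≠ 0 := right_ne_zero_of_mul_eq_one (uqInv_mul_uq p Kbar)

theorem uqInv_ne_zero : uqInv p Kbar ≠ 0 := left_ne_zero_of_mul_eq_one (uqInv_mul_uq p Kbar)

theorem order_uq : (uq Kbar p).order = (p : ℤ) - 1 := by
  have h : uq Kbar p * deltaq Kbar = qExpand Kbar p (deltaq Kbar) := by
    rw [uq, mul_assoc, mul_comm (deltaqInv Kbar), deltaq_mul_deltaqInv, mul_one]
  have h2 := congrArg HahnSeries.order h
  rw [HahnSeries.order_mul (uq_ne_zero p)
    (Fermat.Agent.IG.PR.TransferPoly20.deltaq_ne_zero Kbar),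
    Fermat.Agent.IG.PR.TransferPoly20.order_deltaq, order_qExpand,
    Fermat.Agent.IG.PR.TransferPoly20.order_deltaq] at h2
  linarith

theorem order_uqInv : (uqInv p Kbar).order = 1 - (p : ℤ) := by
  have h2 := congrArg HahnSeries.order (uqInv_mul_uq p Kbar)
  rw [HahnSeries.order_mul (uqInv_ne_zero p) (uq_ne_zero p), order_uq, HahnSeries.order_one] at h2
  linarith

/-- `ord_∞ u = p - 1`. -/
theorem ord_cuspInf_uP : (cuspInf p).ord (uP p) = (p : ℤ) - 1 := by
  have h := order_T_eq p 1 (uP p) (uP_ne_zero p)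
  rw [T_one_uP, order_qExpand, order_uq, placeOf_one, cuspR_one] at h
  have hp0 : (p : ℤ) ≠ 0 := by exact_mod_cast NeZero.ne p
  exact (mul_left_cancel₀ hp0 h).symm

/-- `ord_0 u = 1 - p`. -/
theorem ord_cuspZero_uP : (cuspZero p).ord (uP p) = 1 - (p : ℤ) := by
  have h := order_T_eq p ModularGroup.S⁻¹ (uP p) (uP_ne_zero p)
  have hT : (cuspData p).T ModularGroup.S⁻¹ (uP p) =
      HahnSeries.C (((p : Kbar)⁻¹) ^ 12) * uqInv p Kbar := by
    rw [T_S_inv]
    exact tauS_uP p
  have hp0 : (p : Kbar) ≠ 0 := by exact_mod_cast NeZero.ne p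
  have hC : (HahnSeries.C (((p : Kbar)⁻¹) ^ 12) : LaurentSeries Kbar) ≠ 0 :=
    HahnSeries.C_ne_zero (pow_ne_zero _ (inv_ne_zero hp0))
  rw [hT, HahnSeries.order_mul hC (uqInv_ne_zero p), HahnSeries.order_C, zero_add, order_uqInv,
    placeOf_S_inv, cuspR_S_inv, Nat.cast_one, one_mul] at h
  exact h.symm

end Orders

/-! ### places which are not cusps -/

section Points

variable (p : ℕ) [NeZero p]

/-- A function realised by a nowhere vanishing holomorphic function has order `0` at every place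
which is not a pole of `j` (no hypothesis on elliptic points). -/
theorem ord_eq_zero_of_isRealizedBy {t : FF p} {τ : ℍ → ℂ} (hτ : τ ∈ HolH)
    (ht : IsRealizedBy (realizeData p) t τ) (hne : ∀ z, τ z ≠ 0) (ht0 : t ≠ 0)
    (v : Place Kbar (FF p)) (hv : 0 ≤ v.ord (jF p)) : v.ord t = 0 := by
  obtain ⟨z₀, cj, hc, g, rfl⟩ :=
    exists_pointPlaceD_eq_of_ord_nonneg (realizeData p) (cuspData p) v hv
  obtain ⟨a, b, hb, hab, hΘ⟩ := ht
  have hbF : (b : FF p) ≠ 0 := fun h => hb (Subtype.ext h)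
  have haF : (a : FF p) ≠ 0 := by
    rw [← hab]
    exact mul_ne_zero ht0 hbF
  have ha : a ≠ 0 := fun h => haF (by rw [h]; rfl)
  have hord : (pointPlaceD (realizeData p) z₀ cj hc g).ord t +
      (pointPlaceD (realizeData p) z₀ cj hc g).ord (b : FF p) =
      (pointPlaceD (realizeData p) z₀ cj hc g).ord (a : FF p) := by
    rw [← hab, Place.ord_mul _ ht0 hbF]
  have hΘa : (realizeData p).Θ a = (realizeData p).Θ b * τ := by
    funext z
    exact hΘ z
  have hcomp : compSL ((realizeData p).Θ a) g⁻¹ =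
      compSL ((realizeData p).Θ b) g⁻¹ * compSL τ g⁻¹ := by
    rw [hΘa, compSL_mul_fun]
  have h0 : ordH (compSL τ g⁻¹) z₀ = 0 := by
    rw [ordH_eq_zero_iff (compSL_mem_HolH hτ g⁻¹), compSL_apply]
    exact hne _
  have hordH : ordH (compSL ((realizeData p).Θ a) g⁻¹) z₀ =
      ordH (compSL ((realizeData p).Θ b) g⁻¹) z₀ := by
    rw [hcomp, ordH_mul (compSL_mem_HolH ((realizeData p).mem_HolH b) g⁻¹)
      (compSL_mem_HolH hτ g⁻¹), h0, add_zero]
  have e1 := pointPlaceD_spec (realizeData p) z₀ cj hc g a ha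
  have e2 := pointPlaceD_spec (realizeData p) z₀ cj hc g b hb
  rw [hordH, e2] at e1
  have hm : ((pointMultD (realizeData p) z₀ cj hc g : ℕ) : ℤ) ≠ 0 := by
    exact_mod_cast (pointMultD_pos (realizeData p) z₀ cj hc g).ne'
  have h3 := mul_left_cancel₀ hm e1
  linarith

/-- `ord_v u = 0` at the places which are not poles of `j`. -/
theorem ord_uP_of_nonneg (v : Place Kbar (FF p)) (hv : 0 ≤ v.ord (jF p)) :
    v.ord (uP p) = 0 :=
  ord_eq_zero_of_isRealizedBy p (deltaQuot_mem_HolH p)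
    (exists_fraction_of_isNice (isNice_deltaQuot p)) (deltaQuot_ne_zero p) (uP_ne_zero p) v hv

end Points

/-! ### the divisor `(∞) - (0)` -/

section Divisor

variable (p : ℕ) [NeZero p]

theorem cuspDiv_cuspInf (hp : p.Prime) : cuspDiv p (cuspInf p) = 1 := by
  rw [cuspDiv, Finsupp.sub_apply, Finsupp.single_eq_same,
    Finsupp.single_eq_of_ne (cuspInf_ne_cuspZero p hp), sub_zero]

theorem cuspDiv_cuspZero (hp : p.Prime) : cuspDiv p (cuspZero p) = -1 := by
  rw [cuspDiv, Finsupp.sub_apply, Finsupp.single_eq_same,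
    Finsupp.single_eq_of_ne (cuspInf_ne_cuspZero p hp).symm, zero_sub]

theorem cuspDiv_of_ne {v : Place Kbar (FF p)} (h1 : v ≠ cuspInf p) (h2 : v ≠ cuspZero p) :
    cuspDiv p v = 0 := by
  rw [cuspDiv, Finsupp.sub_apply, Finsupp.single_eq_of_ne h1, Finsupp.single_eq_of_ne h2,
    sub_zero]

/-- **The divisor of the modular unit**: `div u = (p - 1) ((∞) - (0))`. -/
theorem ord_uP_eq (hp : p.Prime) (v : Place Kbar (FF p)) :
    v.ord (uP p) = ((p : ℤ) - 1) * cuspDiv p v := by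
  by_cases hv : 0 ≤ v.ord (jF p)
  · have h1 : v ≠ cuspInf p := by
      rintro rfl
      exact absurd (cuspInf_ord_jF_neg p) (not_lt.mpr hv)
    have h2 : v ≠ cuspZero p := by
      rintro rfl
      exact absurd (cuspZero_ord_jF_neg p) (not_lt.mpr hv)
    rw [ord_uP_of_nonneg p v hv, cuspDiv_of_ne p h1 h2, mul_zero]
  · rcases eq_cuspInf_or_eq_cuspZero p hp v (not_le.mp hv) with rfl | rfl
    · rw [ord_cuspInf_uP, cuspDiv_cuspInf p hp, mul_one]
    · rw [ord_cuspZero_uP, cuspDiv_cuspZero p hp]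
      ring

end Divisor

end Fermat.Agent.MAZ.Ogg24
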