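/-
MAZ free layer, brick F-E2 (helper24), part 3: OGG'S LOWER BOUND.

For a prime `p` put `n = (p - 1) / gcd(p - 1, 12)` and `c₀ = cl((∞) - (0)) ∈ J₀(p)(ℚbar)`.

* `ogg_dvd`      : if `k ((∞) - (0))` is the divisor of a function then `n ∣ k`;
* `ogg_pic0`     : if `k • c₀ = 0` then `n ∣ k`;
* `ogg_rpart_ne_zero` : for every prime `r ∣ n`, `(n / r) • c₀ ≠ 0`.
-/
import Mathlib
import Fermat.Agent.MAZ.Ogg24.Cusps
import Fermat.Agent.RR.LHypGen

set_option autoImplicit false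
set_option linter.unusedSectionVars false

open ModularCurve UpperHalfPlane AlgebraicCurve
open scoped MatrixGroups

noncomputable section

namespace Fermat.Agent.MAZ.Ogg24

open Fermat.Agent.X0 Fermat.Agent.MAZ.HeckeCusp89

/-! ### arithmetic -/

/-- The number `n = (p - 1) / gcd(p - 1, 12)` (numerator of `(p - 1)/12`). -/
def nOgg (p : ℕ) : ℕ := (p - 1) / Nat.gcd (p - 1) 12

theorem arith_end (P : ℕ) (hP : 0 < P) (k : ℤ)
    (H : ∀ (P' : ℕ) (k' : ℤ), 0 < P' → k * P' = P * k' → IsCoprime k' (P' : ℤ) → P' ∣ 12) :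
    ((P / Nat.gcd P 12 : ℕ) : ℤ) ∣ k := by
  set d : ℕ := Int.gcd k P with hd
  have hdpos : 0 < d := Int.gcd_pos_of_ne_zero_right _ (by exact_mod_cast hP.ne')
  have hdk : (d : ℤ) ∣ k := Int.gcd_dvd_left k P
  have hdP : d ∣ P := by
    have := Int.gcd_dvd_right k P
    exact_mod_cast this
  obtain ⟨k', hk'⟩ := hdk
  obtain ⟨P', hP'⟩ := hdP
  have hP'pos : 0 < P' := by
    rcases Nat.eq_zero_or_pos P' with h | h
    · rw [h, mul_zero] at hP'; omega
    · exact h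
  have hd0 : (d : ℤ) ≠ 0 := by exact_mod_cast hdpos.ne'
  have hcop : IsCoprime k' (P' : ℤ) := by
    have h1 := Int.gcd_div_gcd_div_gcd (i := k) (j := (P : ℤ)) (by rw [← hd]; exact hdpos)
    rw [← hd] at h1
    have e1 : k / (d : ℤ) = k' := by rw [hk']; exact Int.mul_ediv_cancel_left _ hd0
    have e2 : (P : ℤ) / (d : ℤ) = P' := by
      rw [hP']; push_cast; exact Int.mul_ediv_cancel_left _ hd0
    rw [e1, e2] at h1
    exact Int.isCoprime_iff_gcd_eq_one.mpr h1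
  have hrel : k * P' = P * k' := by
    rw [hk', hP']; push_cast; ring
  have h12 := H P' k' hP'pos hrel hcop
  have hP'P : P' ∣ P := ⟨d, by rw [hP', mul_comm]⟩
  have hν : P' ∣ Nat.gcd P 12 := Nat.dvd_gcd hP'P h12
  obtain ⟨t, ht⟩ := hν
  have hνP : Nat.gcd P 12 ∣ P := Nat.gcd_dvd_left P 12
  have hn : Nat.gcd P 12 * (P / Nat.gcd P 12) = P := Nat.mul_div_cancel' hνP
  have hdn : d = t * (P / Nat.gcd P 12) := by
    have : P' * d = P' * (t * (P / Nat.gcd P 12)) := by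
      calc P' * d = d * P' := mul_comm _ _
        _ = P := hP'.symm
        _ = Nat.gcd P 12 * (P / Nat.gcd P 12) := hn.symm
        _ = P' * t * (P / Nat.gcd P 12) := by rw [ht]
        _ = P' * (t * (P / Nat.gcd P 12)) := mul_assoc _ _ _
    exact Nat.eq_of_mul_eq_mul_left hP'pos this
  rw [hk', hdn]
  push_cast
  exact ⟨t * k', by ring⟩

/-! ### the function field part -/

section Main

variable (p : ℕ) [NeZero p]

theorem lHyp_FF : Fermat.Agent.RR.LSpace.LHyp Kbar (FF p) :=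
  Fermat.Agent.RR.LHypGen.lHyp_of_isGen (Degree.isGen_jF p (realizeData p) (cuspData p))

/-- If `f ^ P' ~ u ^ k'` have the same divisor with `k'`, `P'` coprime, then `u` is a `P'`-th power
up to a constant, hence `P' ∣ 12`. -/
theorem dvd_twelve_of_divisor (hp : p.Prime) {k : ℤ} {f : FF p} (hf : f ≠ 0)
    (hdiv : ∀ v : Place Kbar (FF p), v.ord f = k * cuspDiv p v)
    {P' : ℕ} {k' : ℤ} (hP' : 0 < P') (hrel : k * P' = ((p : ℤ) - 1) * k')
    (hcop : IsCoprime k' (P' : ℤ)) : P' ∣ 12 := by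
  have hu0 := uP_ne_zero p
  have hfz : f ^ (P' : ℤ) ≠ 0 := zpow_ne_zero _ hf
  have huz : (uP p ^ k')⁻¹ ≠ 0 := inv_ne_zero (zpow_ne_zero _ hu0)
  -- `w = f ^ P' / u ^ k'` has trivial divisor
  have hw0 : f ^ (P' : ℤ) * (uP p ^ k')⁻¹ ≠ 0 := mul_ne_zero hfz huz
  have hword : ∀ v : Place Kbar (FF p), v.ord (f ^ (P' : ℤ) * (uP p ^ k')⁻¹) = 0 := by
    intro v
    rw [Place.ord_mul v hfz huz, Place.ord_inv, Place.ord_zpow, Place.ord_zpow, hdiv v,
      ord_uP_eq p hp v]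
    linear_combination (cuspDiv p v) * hrel
  obtain ⟨c, hc⟩ := Fermat.Agent.RR.LSpace.eq_algebraMap_of_forall_ord_nonneg (lHyp_FF p)
    (fun v => (hword v).ge)
  have hc0 : c ≠ 0 := by
    rintro rfl
    rw [map_zero] at hc
    exact hw0 hc
  have hfP : f ^ (P' : ℤ) = algebraMap Kbar (FF p) c * uP p ^ k' := by
    rw [← hc, mul_assoc, inv_mul_cancel₀ (zpow_ne_zero _ hu0), mul_one]
  obtain ⟨a, b, hab⟩ := hcop
  have hpow : (f ^ a * uP p ^ b) ^ P' = algebraMap Kbar (FF p) (c ^ a) * uP p := by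
    have h1 : (f ^ a * uP p ^ b) ^ (P' : ℤ) = (f ^ (P' : ℤ)) ^ a * uP p ^ (b * P') := by
      rw [mul_zpow, ← zpow_mul, ← zpow_mul, ← zpow_mul, mul_comm a (P' : ℤ)]
    have hexp : k' * a + b * P' = 1 := by linarith
    rw [← zpow_natCast, h1, hfP, mul_zpow, ← zpow_mul, mul_assoc, ← zpow_add₀ hu0, hexp,
      zpow_one, map_zpow₀]
  exact pow_dvd_twelve p hp hP' (zpow_ne_zero a hc0) hpow

/-- **Ogg's lower bound, divisor form.** If `k ((∞) - (0))` is principal on `X₀(p)`, `p` prime, then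
`(p - 1)/gcd(p - 1, 12)` divides `k`. -/
theorem ogg_dvd (hp : p.Prime) {k : ℤ} {f : FF p} (hf : f ≠ 0)
    (hdiv : ∀ v : Place Kbar (FF p), v.ord f = k * cuspDiv p v) : (nOgg p : ℤ) ∣ k := by
  have hP : 0 < p - 1 := Nat.sub_pos_of_lt hp.one_lt
  refine arith_end (p - 1) hP k fun P' k' hP' hrel hcop => ?_
  refine dvd_twelve_of_divisor p hp hf hdiv hP' ?_ hcop
  rw [hrel, Nat.cast_sub hp.one_lt.le, Nat.cast_one]

/-- **Ogg's lower bound**: `k • c₀ = 0 ⇒ (p - 1)/gcd(p - 1, 12) ∣ k`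
(`c₀ = HeckeCusp89.c0 p = cl((∞) - (0))`). -/
theorem ogg_pic0 (hp : p.Prime) {k : ℤ} (hk : k • c0 p = 0) : (nOgg p : ℤ) ∣ k := by
  have h1 : k • c0 p = Pic0.mk (k • cuspDiv0 p) := rfl
  rw [h1] at hk
  have h2 : (k • cuspDiv0 p) ∈
      (Divisor.principal (K := Kbar) (F := FF p)).addSubgroupOf
        (Divisor.degZero (K := Kbar) (F := FF p)) :=
    (QuotientAddGroup.eq_zero_iff _).mp hk
  rw [AddSubgroup.mem_addSubgroupOf] at h2
  obtain ⟨f, hf, hdiv⟩ := h2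
  refine ogg_dvd p hp hf fun v => ?_
  rw [← hdiv v]
  show (k • cuspDiv p) v = _
  rw [Finsupp.smul_apply, smul_eq_mul]

theorem nOgg_pos (hp : p.Prime) : 0 < nOgg p := by
  have hP : 0 < p - 1 := Nat.sub_pos_of_lt hp.one_lt
  exact Nat.div_pos (Nat.le_of_dvd hP (Nat.gcd_dvd_left _ _)) (Nat.gcd_pos_of_pos_left _ hP)

/-- **(E2)** for every prime `r ∣ n`, the multiple `(n / r) • c₀` is not zero. -/
theorem ogg_rpart_ne_zero (hp : p.Prime) {r : ℕ} (hr : r.Prime) (hrn : r ∣ nOgg p) :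
    (nOgg p / r) • c0 p ≠ 0 := by
  intro h0
  have h1 : ((nOgg p / r : ℕ) : ℤ) • c0 p = 0 := by
    rw [natCast_zsmul]
    exact h0
  have h2 := ogg_pic0 p hp h1
  have h3 : nOgg p ∣ nOgg p / r := by exact_mod_cast h2
  have hpos := nOgg_pos p hp
  have hdivpos : 0 < nOgg p / r := Nat.div_pos (Nat.le_of_dvd hpos hrn) hr.pos
  have hle := Nat.le_of_dvd hdivpos h3
  have hlt : nOgg p / r < nOgg p := Nat.div_lt_self hpos hr.one_lt
  omega

/-- The order of `c₀` is a multiple of `n` (Ogg: it is exactly `n`). -/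
theorem nOgg_dvd_addOrderOf (hp : p.Prime) : nOgg p ∣ addOrderOf (c0 p) := by
  have h := ogg_pic0 p hp (k := (addOrderOf (c0 p) : ℤ)) (by
    rw [natCast_zsmul]
    exact addOrderOf_nsmul_eq_zero (c0 p))
  exact_mod_cast h

/-- The trivial upper bound: `(p - 1) • c₀ = 0`, since `(p - 1)((∞) - (0)) = div (Δ(q^p)/Δ(q))`. -/
theorem pred_nsmul_c0 (hp : p.Prime) : (p - 1) • c0 p = 0 := by
  have h1 : (p - 1) • c0 p = Pic0.mk ((p - 1) • cuspDiv0 p) := rfl
  rw [h1, Pic0.mk, QuotientAddGroup.eq_zero_iff, AddSubgroup.mem_addSubgroupOf]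
  refine ⟨uP p, uP_ne_zero p, fun v => ?_⟩
  show ((p - 1) • cuspDiv p) v = _
  rw [Finsupp.smul_apply, nsmul_eq_mul, ord_uP_eq p hp v, Nat.cast_sub hp.one_lt.le, Nat.cast_one]

/-- The order of `c₀` divides `p - 1`. -/
theorem addOrderOf_c0_dvd_pred (hp : p.Prime) : addOrderOf (c0 p) ∣ p - 1 :=
  addOrderOf_dvd_of_nsmul_eq_zero (pred_nsmul_c0 p hp)

/-- **Brick F-E2, final form** (no private definitions in the statement): for `p` prime and every
prime `r` dividing `n = (p - 1)/gcd(p - 1, 12)`, the multiple `(n / r) • c₀` of the cuspidal class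
`c₀ = HeckeCusp89.c0 p` is not zero. -/
theorem c0_rpart_ne_zero (hp : p.Prime) {r : ℕ} (hr : r.Prime)
    (hrn : r ∣ (p - 1) / Nat.gcd (p - 1) 12) :
    ((p - 1) / Nat.gcd (p - 1) 12 / r) • Fermat.Agent.MAZ.HeckeCusp89.c0 p ≠ 0 :=
  ogg_rpart_ne_zero p hp hr hrn

/-- **Brick F-E2, order form**: `k • c₀ = 0 ⇒ (p - 1)/gcd(p - 1, 12) ∣ k`. -/
theorem c0_zsmul_eq_zero_dvd (hp : p.Prime) {k : ℤ}
    (hk : k • Fermat.Agent.MAZ.HeckeCusp89.c0 p = 0) :
    (((p - 1) / Nat.gcd (p - 1) 12 : ℕ) : ℤ) ∣ k :=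
  ogg_pic0 p hp hk

end Main

end Fermat.Agent.MAZ.Ogg24
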